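import Mathlib

/-!
# S41 / block CORE — Ribet's linear algebra (helper577)

Mathlib-only, self-contained.  Main results:

* `ribetCoreLattice`   : the abstract statement for one pair of lattices `X`, `B` with maps
  `i : X → B`, `j : B → X` (hypotheses bundled in `Hyp`);
* `ribetCore_unfolded` : exactly the body of `Fermat.Agent.S41.Spec.RibetCoreStatement`
  (`X = A × A`, `i = i₁ + i₂`, `j = (j₁, j₂)`).

Route: blueprint `coord/S41-CORE.md` of helper41 (Steps 0-5), with the projector `e` chosen by a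
minimality argument on `dim (ker(i mod p) ∩ fix(e))` instead of lists of operators.

Sections: (1) linear algebra lemmas (`exists_pow_isIdempotentElem`, `exists_common_ker`,
`exists_eq_add_of_dual`); (2) reduction mod `p` of a lattice (`Red`); (3) admissible projectors;
(4) descent + Artin-Rees; (5) the unfolded statement.
-/

set_option autoImplicit false

namespace Fermat.Agent.S41.H577

/-! ### from CoreLin -/


/-- In a finite monoid every element has an idempotent power with positive exponent. -/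
theorem exists_pow_isIdempotentElem {M : Type*} [Monoid M] [Finite M] (x : M) :
    ∃ n : ℕ, 0 < n ∧ IsIdempotentElem (x ^ n) := by
  obtain ⟨a, b, hab, h⟩ := Finite.exists_ne_map_eq_of_infinite (fun n : ℕ => x ^ n)
  wlog hlt : a < b generalizing a b
  · exact this b a hab.symm h.symm (lt_of_le_of_ne (not_lt.mp hlt) hab.symm)
  obtain ⟨d, rfl⟩ : ∃ d, b = a + d := ⟨b - a, by omega⟩
  have hd : 0 < d := by omega
  replace h : x ^ a = x ^ (a + d) := h
  -- `x ^ (n + d) = x ^ n` for `n ≥ a`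
  have h1 : ∀ n, a ≤ n → x ^ (n + d) = x ^ n := by
    intro n hn
    obtain ⟨c, rfl⟩ : ∃ c, n = a + c := ⟨n - a, by omega⟩
    calc x ^ (a + c + d) = x ^ (a + d) * x ^ c := by rw [← pow_add]; congr 1; omega
      _ = x ^ a * x ^ c := by rw [← h]
      _ = x ^ (a + c) := by rw [← pow_add]
  have h2 : ∀ m n, a ≤ n → x ^ (n + m * d) = x ^ n := by
    intro m
    induction m with
    | zero => intro n _; simp
    | succ m ih =>
      intro n hn
      have : n + (m + 1) * d = (n + m * d) + d := by ring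
      rw [this, h1 _ (by omega), ih n hn]
  refine ⟨(a + 1) * d, Nat.mul_pos (Nat.succ_pos a) hd, ?_⟩
  have hle : a ≤ (a + 1) * d := by nlinarith
  show x ^ ((a + 1) * d) * x ^ ((a + 1) * d) = x ^ ((a + 1) * d)
  rw [← pow_add]
  exact h2 (a + 1) _ hle

section Field

variable {F : Type*} [Field F] {W : Type*} [AddCommGroup W] [Module F W]

/-- A commuting family of endomorphisms, each locally nilpotent on a nonzero stable subspace `K`
of finite dimension, has a common nonzero kernel vector in `K`. -/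
theorem exists_common_ker [FiniteDimensional F W] {ι : Type*} (s : ι → W →ₗ[F] W)
    (hcomm : ∀ l l' w, s l (s l' w) = s l' (s l w)) :
    ∀ (K : Submodule F W), K ≠ ⊥ → (∀ l, ∀ w ∈ K, s l w ∈ K) →
      (∀ l, ∀ w ∈ K, ∃ n : ℕ, (s l ^ n) w = 0) → ∃ v ∈ K, v ≠ 0 ∧ ∀ l, s l v = 0 := by
  intro K
  induction' hn : Module.finrank F K using Nat.strong_induction_on with n ih generalizing K
  intro hK hstab hnil
  by_cases hall : ∀ l, ∀ w ∈ K, s l w = 0
  · obtain ⟨v, hvK, hv0⟩ := Submodule.exists_mem_ne_zero_of_ne_bot hK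
    exact ⟨v, hvK, hv0, fun l => hall l v hvK⟩
  · classical
    simp only [not_forall] at hall
    obtain ⟨l, w, hwK, hw⟩ := hall
    set K' : Submodule F W := K ⊓ LinearMap.ker (s l) with hK'
    have hlt : K' < K := by
      refine lt_of_le_of_ne inf_le_left ?_
      intro h
      have : w ∈ K' := h ▸ hwK
      exact hw (LinearMap.mem_ker.mp this.2)
    have hK'ne : K' ≠ ⊥ := by
      -- nilpotency gives a kernel vector
      obtain ⟨v, hvK, hv0⟩ := Submodule.exists_mem_ne_zero_of_ne_bot hK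
      have hex := hnil l v hvK
      have hstabn : ∀ m : ℕ, (s l ^ m) v ∈ K := by
        intro m
        induction m with
        | zero => simpa using hvK
        | succ m ihm =>
          rw [pow_succ', Module.End.mul_apply]
          exact hstab l _ ihm
      have hn0 : Nat.find hex ≠ 0 := by
        intro h0
        have := Nat.find_spec hex
        rw [h0] at this
        exact hv0 (by simpa using this)
      obtain ⟨m, hm⟩ := Nat.exists_eq_succ_of_ne_zero hn0
      have hmin : (s l ^ m) v ≠ 0 := Nat.find_min hex (by omega)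
      have hzero : s l ((s l ^ m) v) = 0 := by
        have := Nat.find_spec hex
        rw [hm, Nat.succ_eq_add_one, pow_succ', Module.End.mul_apply] at this
        exact this
      intro hbot
      have hmem : (s l ^ m) v ∈ K' := ⟨hstabn m, LinearMap.mem_ker.mpr hzero⟩
      rw [hbot, Submodule.mem_bot] at hmem
      exact hmin hmem
    have hfr : Module.finrank F K' < n := hn ▸ Submodule.finrank_lt_finrank_of_lt hlt
    obtain ⟨v, hvK', hv0, hv⟩ := ih _ hfr K' rfl hK'ne
      (fun l' w hw => ⟨hstab l' w hw.1, by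
        show s l' w ∈ LinearMap.ker (s l)
        rw [LinearMap.mem_ker, hcomm, LinearMap.mem_ker.mp hw.2, map_zero]⟩)
      (fun l' w hw => hnil l' w hw.1)
    exact ⟨v, hvK'.1, hv0, hv⟩

/-- **Duality lemma.**  `W`, `U` with left-nondegenerate bilinear forms, `i : W → U` left adjoint to
`j : U → W`, `e` a self-adjoint endomorphism of `W` such that `ker i` contains no nonzero fixed
vector of `e`.  Then `W = j(U) + (1 - e) W`. -/
theorem exists_eq_add_of_dual [FiniteDimensional F W] {U : Type*} [AddCommGroup U] [Module F U]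
    (i : W →ₗ[F] U) (j : U →ₗ[F] W) (βW : W →ₗ[F] W →ₗ[F] F) (βU : U →ₗ[F] U →ₗ[F] F)
    (hW : ∀ w, (∀ z, βW w z = 0) → w = 0) (hU : ∀ u, (∀ z, βU u z = 0) → u = 0)
    (adj : ∀ w u, βU (i w) u = βW w (j u)) (e : W →ₗ[F] W)
    (he : ∀ w z, βW (e w) z = βW w (e z))
    (hK : ∀ w, i w = 0 → e w = w → w = 0) (w : W) :
    ∃ (u : U) (z : W), w = j u + (z - e z) := by
  set J : Submodule F W := LinearMap.range j ⊔ LinearMap.range (LinearMap.id - e) with hJ
  have hJtop : J = ⊤ := by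
    by_contra hne
    obtain ⟨f, hf0, hf⟩ := Submodule.exists_le_ker_of_lt_top J (lt_top_iff_ne_top.mpr hne)
    have hinj : Function.Injective βW := by
      rw [injective_iff_map_eq_zero]
      intro x hx
      exact hW x (fun z => by rw [hx]; rfl)
    have hsurj : Function.Surjective βW :=
      (LinearMap.injective_iff_surjective_of_finrank_eq_finrank
        (Subspace.dual_finrank_eq (K := F) (V := W)).symm).mp hinj
    obtain ⟨x, hx⟩ := hsurj f
    have hx0 : x ≠ 0 := by
      rintro rfl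
      exact hf0 (by rw [← hx, map_zero])
    have hperp : ∀ z ∈ J, βW x z = 0 := by
      intro z hz
      have := hf hz
      rw [LinearMap.mem_ker] at this
      rw [hx]; exact this
    have h1 : e x = x := by
      have : e x - x = 0 := by
        apply hW
        intro z
        have hz : z - e z ∈ J :=
          Submodule.mem_sup_right ⟨z, by simp⟩
        have := hperp _ hz
        rw [map_sub] at this
        rw [map_sub, LinearMap.sub_apply, he]
        rw [sub_eq_zero] at this ⊢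
        exact this.symm
      exact sub_eq_zero.mp this
    have h2 : i x = 0 := by
      apply hU
      intro u
      rw [adj]
      exact hperp _ (Submodule.mem_sup_left ⟨u, rfl⟩)
    exact hx0 (hK x h2 h1)
  have hw : w ∈ J := hJtop ▸ Submodule.mem_top
  obtain ⟨a, ⟨u, rfl⟩, b, ⟨z, rfl⟩, rfl⟩ := Submodule.mem_sup.mp hw
  exact ⟨u, z, by simp⟩

end Field


/-! ### from CoreRed -/


variable (p : ℕ)

/-- The submodule `pX` of `X`. -/
def pSub (X : Type*) [AddCommGroup X] : Submodule ℤ X :=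
  LinearMap.range ((p : ℤ) • (LinearMap.id : X →ₗ[ℤ] X))

theorem mem_pSub {X : Type*} [AddCommGroup X] {x : X} :
    x ∈ pSub p X ↔ ∃ z, x = (p : ℤ) • z := by
  unfold pSub
  rw [LinearMap.mem_range]
  constructor
  · rintro ⟨z, rfl⟩; exact ⟨z, rfl⟩
  · rintro ⟨z, rfl⟩; exact ⟨z, rfl⟩

/-- `X / pX`. -/
abbrev Red (X : Type*) [AddCommGroup X] : Type _ := X ⧸ pSub p X

namespace Red

variable {X Y Z : Type*} [AddCommGroup X] [AddCommGroup Y] [AddCommGroup Z]

/-- the reduction map -/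
def mk : X →ₗ[ℤ] Red p X := (pSub p X).mkQ

theorem mk_surjective : Function.Surjective (mk p : X → Red p X) :=
  Submodule.mkQ_surjective _

theorem mk_eq_zero {x : X} : mk p x = 0 ↔ ∃ z, x = (p : ℤ) • z := by
  unfold mk
  rw [Submodule.mkQ_apply, Submodule.Quotient.mk_eq_zero, mem_pSub]

theorem mk_eq_mk {x y : X} : mk p x = mk p y ↔ ∃ z, x - y = (p : ℤ) • z := by
  rw [← sub_eq_zero, ← map_sub, mk_eq_zero]

theorem nsmul_eq_zero (v : Red p X) : p • v = 0 := by
  obtain ⟨x, rfl⟩ := mk_surjective p v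
  rw [← map_nsmul, mk_eq_zero]
  exact ⟨x, by rw [natCast_zsmul]⟩

instance instModule : Module (ZMod p) (Red p X) :=
  AddCommGroup.zmodModule (n := p) (nsmul_eq_zero p)

instance instFinite [NeZero p] [Module.Finite ℤ X] : Module.Finite (ZMod p) (Red p X) :=
  Module.Finite.of_restrictScalars_finite ℤ (ZMod p) (Red p X)

theorem finite [NeZero p] [Module.Finite ℤ X] : Finite (Red p X) :=
  Module.finite_of_finite (ZMod p)

theorem finite_end [NeZero p] [Module.Finite ℤ X] : Finite (Module.End (ZMod p) (Red p X)) :=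
  haveI := finite p (X := X)
  Finite.of_injective (fun f : Module.End (ZMod p) (Red p X) => (f : Red p X → Red p X))
    DFunLike.coe_injective

/-- the induced map -/
def map (f : X →ₗ[ℤ] Y) : Red p X →ₗ[ZMod p] Red p Y :=
  ((pSub p X).mapQ (pSub p Y) f (by
    intro x hx
    rw [mem_pSub] at hx
    obtain ⟨z, rfl⟩ := hx
    rw [Submodule.mem_comap, map_zsmul, mem_pSub]
    exact ⟨f z, rfl⟩)).toAddMonoidHom.toZModLinearMap p

@[simp]
theorem map_mk (f : X →ₗ[ℤ] Y) (x : X) : map p f (mk p x) = mk p (f x) := rfl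

theorem map_comp (g : Y →ₗ[ℤ] Z) (f : X →ₗ[ℤ] Y) (v : Red p X) :
    map p (g ∘ₗ f) v = map p g (map p f v) := by
  obtain ⟨x, rfl⟩ := mk_surjective p v
  rfl

/-- `End_ℤ X → End_{𝔽_p} (X/pX)` as a ring homomorphism -/
def endHom : Module.End ℤ X →+* Module.End (ZMod p) (Red p X) where
  toFun f := map p f
  map_one' := by
    refine LinearMap.ext fun v => ?_
    obtain ⟨x, rfl⟩ := mk_surjective p v
    rfl
  map_mul' f g := by
    refine LinearMap.ext fun v => ?_
    obtain ⟨x, rfl⟩ := mk_surjective p v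
    rfl
  map_zero' := by
    refine LinearMap.ext fun v => ?_
    obtain ⟨x, rfl⟩ := mk_surjective p v
    rfl
  map_add' f g := by
    refine LinearMap.ext fun v => ?_
    obtain ⟨x, rfl⟩ := mk_surjective p v
    rfl

@[simp]
theorem endHom_mk (f : Module.End ℤ X) (x : X) : endHom p f (mk p x) = mk p (f x) := rfl

/-- the bilinear form induced by a bi-additive map -/
def bil (β : X →+ X →+ ZMod p) : Red p X →ₗ[ZMod p] Red p X →ₗ[ZMod p] ZMod p :=
  ((pSub p X).liftQ
    ((AddMonoidHom.mk' (fun x : X =>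
        (((pSub p X).liftQ (β x).toIntLinearMap (by
          intro y hy
          rw [mem_pSub] at hy
          obtain ⟨z, rfl⟩ := hy
          rw [LinearMap.mem_ker, AddMonoidHom.coe_toIntLinearMap, map_zsmul, natCast_zsmul,
            ← Nat.cast_smul_eq_nsmul (ZMod p), ZMod.natCast_self, zero_smul])).toAddMonoidHom.toZModLinearMap p :
          Red p X →ₗ[ZMod p] ZMod p))
      (by
        intro x x'
        refine LinearMap.ext fun v => ?_
        obtain ⟨y, rfl⟩ := mk_surjective p v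
        show (β (x + x')) y = (β x) y + (β x') y
        rw [map_add, AddMonoidHom.add_apply])).toIntLinearMap)
    (by
      intro x hx
      rw [mem_pSub] at hx
      obtain ⟨z, rfl⟩ := hx
      rw [LinearMap.mem_ker]
      refine LinearMap.ext fun v => ?_
      obtain ⟨y, rfl⟩ := mk_surjective p v
      show (β ((p : ℤ) • z)) y = 0
      rw [map_zsmul]
      rw [AddMonoidHom.smul_apply, natCast_zsmul, ← Nat.cast_smul_eq_nsmul (ZMod p),
        ZMod.natCast_self, zero_smul])).toAddMonoidHom.toZModLinearMap p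

@[simp]
theorem bil_mk (β : X →+ X →+ ZMod p) (x y : X) : bil p β (mk p x) (mk p y) = β x y := rfl

end Red


/-! ### from CoreMain -/


section Basic

variable {X Y : Type*} [AddCommGroup X] [AddCommGroup Y]

theorem pow_intertwine (f : X →ₗ[ℤ] Y) (g : Module.End ℤ X) (h : Module.End ℤ Y)
    (hf : ∀ x, f (g x) = h (f x)) (n : ℕ) (x : X) : f ((g ^ n) x) = (h ^ n) (f x) := by
  induction n generalizing x with
  | zero => simp
  | succ n ih => rw [pow_succ, pow_succ, Module.End.mul_apply, Module.End.mul_apply, ih, hf]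

theorem pow_selfAdjoint {F : Type*} [AddCommGroup F] (β : X →+ X →+ F) (g : Module.End ℤ X)
    (hg : ∀ x y, β (g x) y = β x (g y)) (n : ℕ) (x y : X) :
    β ((g ^ n) x) y = β x ((g ^ n) y) := by
  induction n generalizing x y with
  | zero => simp
  | succ n ih =>
    rw [pow_succ, Module.End.mul_apply, ih, hg, ← Module.End.mul_apply, ← pow_succ', pow_succ]

theorem pow_apply_smul (p : ℤ) (g : Module.End ℤ X) (n : ℕ) (hn : 0 < n) (x : X)
    (hx : ∃ z, g x = p • z) : ∃ z, (g ^ n) x = p • z := by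
  obtain ⟨m, rfl⟩ : ∃ m, n = m + 1 := ⟨n - 1, by omega⟩
  obtain ⟨z, hz⟩ := hx
  exact ⟨(g ^ m) z, by rw [pow_succ, Module.End.mul_apply, hz, map_zsmul]⟩

end Basic

section Lattice

variable (p : ℕ) {ι X B : Type*} [AddCommGroup X] [AddCommGroup B]
  (tX : ι → Module.End ℤ X) (tB : ι → Module.End ℤ B) (i : X →ₗ[ℤ] B) (j : B →ₗ[ℤ] X)
  (a : ι → ℤ) (βX : X →+ X →+ ZMod p) (βB : B →+ B →+ ZMod p)

/-- the hypotheses of the lattice form of CORE -/
structure Hyp : Prop where
  hcX : ∀ l l', Commute (tX l) (tX l')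
  hcB : ∀ l l', Commute (tB l) (tB l')
  hi : ∀ l x, tB l (i x) = i (tX l x)
  hj : ∀ l y, tX l (j y) = j (tB l y)
  hsa : ∀ l x y, βX (tX l x) y = βX x (tX l y)
  hadj : ∀ x y, βB (i x) y = βX x (j y)
  hndX : ∀ x, (∀ y, βX x y = 0) → ∃ z, x = (p : ℤ) • z
  hndB : ∀ x, (∀ y, βB x y = 0) → ∃ z, x = (p : ℤ) • z
  hIh : ∀ x : X, (∃ z, i x = (p : ℤ) • z) → (∀ l, ∃ z, tX l x - a l • x = (p : ℤ) • z) →
    ∃ z, x = (p : ℤ) • z

/-- `s_l = t_l - a_l` -/
def sOp {Y : Type*} [AddCommGroup Y] (t : ι → Module.End ℤ Y) (a : ι → ℤ) (l : ι) :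
    Module.End ℤ Y := t l - a l • 1

theorem sOp_apply {Y : Type*} [AddCommGroup Y] (t : ι → Module.End ℤ Y) (a : ι → ℤ) (l : ι)
    (y : Y) : sOp t a l y = t l y - a l • y := rfl

/-- admissible projector pairs -/
structure Adm (eX : Module.End ℤ X) (eB : Module.End ℤ B) : Prop where
  comX : ∀ l, Commute eX (tX l)
  comB : ∀ l, Commute eB (tB l)
  int_i : ∀ x, i (eX x) = eB (i x)
  int_j : ∀ y, j (eB y) = eX (j y)
  sa : ∀ x y, βX (eX x) y = βX x (eX y)
  idemX : IsIdempotentElem (Red.endHom p eX)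
  idemB : IsIdempotentElem (Red.endHom p eB)
  fix : ∀ x, (∀ l, ∃ z, tX l x - a l • x = (p : ℤ) • z) → ∃ z, eX x - x = (p : ℤ) • z

variable {p tX tB i j a βX βB}

theorem adm_one : Adm p tX tB i j a βX (1 : Module.End ℤ X) (1 : Module.End ℤ B) where
  comX l := Commute.one_left _
  comB l := Commute.one_left _
  int_i x := rfl
  int_j y := rfl
  sa x y := rfl
  idemX := by rw [map_one]; exact IsIdempotentElem.one
  idemB := by rw [map_one]; exact IsIdempotentElem.one
  fix x _ := ⟨0, by simp⟩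

theorem commute_sOp {Y : Type*} [AddCommGroup Y] (t : ι → Module.End ℤ Y) (a : ι → ℤ)
    (e : Module.End ℤ Y) (he : ∀ l, Commute e (t l)) (l : ι) : Commute e (sOp t a l) := by
  unfold sOp
  exact (he l).sub_right ((Commute.one_right e).smul_right (a l))

theorem adm_step (H : Hyp p tX tB i j a βX βB) {eX : Module.End ℤ X} {eB : Module.End ℤ B}
    (h : Adm p tX tB i j a βX eX eB) (l : ι) (E : ℕ) (hE : 0 < E)
    (hiX : IsIdempotentElem (Red.endHom p (sOp tX a l ^ E)))
    (hiB : IsIdempotentElem (Red.endHom p (sOp tB a l ^ E))) :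
    Adm p tX tB i j a βX (eX * (1 - sOp tX a l ^ E)) (eB * (1 - sOp tB a l ^ E)) := by
  have hsX : ∀ l', Commute (sOp tX a l) (tX l') := fun l' =>
    (commute_sOp tX a (tX l') (fun l'' => H.hcX l' l'') l).symm
  have hsB : ∀ l', Commute (sOp tB a l) (tB l') := fun l' =>
    (commute_sOp tB a (tB l') (fun l'' => H.hcB l' l'') l).symm
  have hfX : ∀ l', Commute (1 - sOp tX a l ^ E) (tX l') := fun l' =>
    (Commute.one_left _).sub_left ((hsX l').pow_left E)
  have hfB : ∀ l', Commute (1 - sOp tB a l ^ E) (tB l') := fun l' =>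
    (Commute.one_left _).sub_left ((hsB l').pow_left E)
  have heX : Commute eX (1 - sOp tX a l ^ E) :=
    (Commute.one_right _).sub_right ((commute_sOp tX a eX h.comX l).pow_right E)
  have heB : Commute eB (1 - sOp tB a l ^ E) :=
    (Commute.one_right _).sub_right ((commute_sOp tB a eB h.comB l).pow_right E)
  have hsi : ∀ x, i (sOp tX a l x) = sOp tB a l (i x) := by
    intro x
    rw [sOp_apply, sOp_apply, map_sub, map_zsmul, H.hi]
  have hsj : ∀ y, j (sOp tB a l y) = sOp tX a l (j y) := by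
    intro y
    rw [sOp_apply, sOp_apply, map_sub, map_zsmul, H.hj]
  have hssa : ∀ x y, βX (sOp tX a l x) y = βX x (sOp tX a l y) := by
    intro x y
    rw [sOp_apply, sOp_apply, map_sub, map_sub, AddMonoidHom.sub_apply, map_zsmul, map_zsmul,
      AddMonoidHom.smul_apply, H.hsa]
  refine ⟨fun l' => (h.comX l').mul_left (hfX l'), fun l' => (h.comB l').mul_left (hfB l'),
    ?_, ?_, ?_, ?_, ?_, ?_⟩
  · intro x
    rw [Module.End.mul_apply, Module.End.mul_apply, h.int_i, LinearMap.sub_apply,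
      LinearMap.sub_apply, Module.End.one_apply, Module.End.one_apply, map_sub,
      pow_intertwine i _ _ hsi]
  · intro y
    rw [Module.End.mul_apply, Module.End.mul_apply, h.int_j, LinearMap.sub_apply,
      LinearMap.sub_apply, Module.End.one_apply, Module.End.one_apply, map_sub,
      pow_intertwine j _ _ hsj]
  · intro x y
    have hf : ∀ x y, βX ((1 - sOp tX a l ^ E) x) y = βX x ((1 - sOp tX a l ^ E) y) := by
      intro x y
      rw [LinearMap.sub_apply, LinearMap.sub_apply, Module.End.one_apply, Module.End.one_apply,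
        map_sub, map_sub, AddMonoidHom.sub_apply, pow_selfAdjoint βX _ hssa]
    rw [Module.End.mul_apply, h.sa, hf, ← Module.End.mul_apply, heX.eq]
  · rw [map_mul]
    refine IsIdempotentElem.mul_of_commute (heX.map _) h.idemX ?_
    rw [map_sub, map_one]
    exact hiX.one_sub
  · rw [map_mul]
    refine IsIdempotentElem.mul_of_commute (heB.map _) h.idemB ?_
    rw [map_sub, map_one]
    exact hiB.one_sub
  · intro x hx
    obtain ⟨z, hz⟩ := h.fix x hx
    obtain ⟨w, hw⟩ := pow_apply_smul (p : ℤ) (sOp tX a l) E hE x (hx l)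
    refine ⟨z - eX w, ?_⟩
    rw [Module.End.mul_apply, LinearMap.sub_apply, Module.End.one_apply, map_sub, hw, map_zsmul,
      smul_sub, ← hz]
    abel


variable (p i) in
/-- `K(e) = ker(i mod p) ∩ {w : e w = w}` -/
def Kof (eX : Module.End ℤ X) : Submodule (ZMod p) (Red p X) :=
  LinearMap.ker (Red.map p i) ⊓ LinearMap.ker (Red.endHom p eX - 1)

theorem mem_Kof {eX : Module.End ℤ X} {w : Red p X} :
    w ∈ Kof p i eX ↔ Red.map p i w = 0 ∧ Red.endHom p eX w = w := by
  unfold Kof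
  rw [Submodule.mem_inf, LinearMap.mem_ker, LinearMap.mem_ker, LinearMap.sub_apply,
    Module.End.one_apply, sub_eq_zero]

theorem exists_exponent [NeZero p] [Module.Finite ℤ X] [Module.Finite ℤ B] (l : ι) :
    ∃ E : ℕ, 0 < E ∧ IsIdempotentElem (Red.endHom p (sOp tX a l ^ E)) ∧
      IsIdempotentElem (Red.endHom p (sOp tB a l ^ E)) := by
  have := Red.finite_end p (X := X)
  have := Red.finite_end p (X := B)
  obtain ⟨n, hn, hidem⟩ := exists_pow_isIdempotentElem
    ((Red.endHom p (sOp tX a l), Red.endHom p (sOp tB a l)) :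
      Module.End (ZMod p) (Red p X) × Module.End (ZMod p) (Red p B))
  refine ⟨n, hn, ?_, ?_⟩
  · have := congrArg Prod.fst hidem.eq
    rw [map_pow]
    exact this
  · have := congrArg Prod.snd hidem.eq
    rw [map_pow]
    exact this

theorem exists_adm_bot [Fact p.Prime] [Module.Finite ℤ X] [Module.Finite ℤ B]
    (H : Hyp p tX tB i j a βX βB) :
    ∃ (eX : Module.End ℤ X) (eB : Module.End ℤ B),
      Adm p tX tB i j a βX eX eB ∧ Kof p i eX = ⊥ := by
  have : NeZero p := ⟨(Fact.out : p.Prime).ne_zero⟩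
  choose E hE0 hEX hEB using fun l => exists_exponent (p := p) (tX := tX) (tB := tB) (a := a) l
  suffices hmain : ∀ n, ∀ (eX : Module.End ℤ X) (eB : Module.End ℤ B),
      Adm p tX tB i j a βX eX eB → Module.finrank (ZMod p) (Kof p i eX) = n →
      ∃ (eX' : Module.End ℤ X) (eB' : Module.End ℤ B),
        Adm p tX tB i j a βX eX' eB' ∧ Kof p i eX' = ⊥ from
    hmain _ 1 1 adm_one rfl
  intro n
  induction n using Nat.strong_induction_on with
  | _ n ih =>
  intro eX eB h hn
  by_cases hbot : Kof p i eX = ⊥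
  · exact ⟨eX, eB, h, hbot⟩
  by_cases hall : ∀ l, Kof p i (eX * (1 - sOp tX a l ^ E l)) = Kof p i eX
  · exfalso
    have hsi : ∀ l x, i (sOp tX a l x) = sOp tB a l (i x) := by
      intro l x
      rw [sOp_apply, sOp_apply, map_sub, map_zsmul, H.hi]
    have hcomm : ∀ l l' w, Red.endHom p (sOp tX a l) (Red.endHom p (sOp tX a l') w) =
        Red.endHom p (sOp tX a l') (Red.endHom p (sOp tX a l) w) := by
      intro l l' w
      have hc : Commute (sOp tX a l) (sOp tX a l') :=
        commute_sOp tX a _ (fun l'' => (commute_sOp tX a (tX l'') (fun m => H.hcX l'' m) l).symm) l'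
      have := (hc.map (Red.endHom p)).eq
      rw [← Module.End.mul_apply, ← Module.End.mul_apply, this]
    have hstab : ∀ l, ∀ w ∈ Kof p i eX, Red.endHom p (sOp tX a l) w ∈ Kof p i eX := by
      intro l w hw
      rw [mem_Kof] at hw ⊢
      constructor
      · obtain ⟨x, rfl⟩ := Red.mk_surjective p w
        have h1 : Red.map p i (Red.endHom p (sOp tX a l) (Red.mk p x)) =
            Red.endHom p (sOp tB a l) (Red.map p i (Red.mk p x)) := by
          rw [Red.endHom_mk, Red.map_mk, Red.map_mk, Red.endHom_mk, hsi]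
        rw [h1, hw.1, map_zero]
      · have hc := ((commute_sOp tX a eX h.comX l).map (Red.endHom p)).eq
        rw [← Module.End.mul_apply, hc, Module.End.mul_apply, hw.2]
    have hnil : ∀ l, ∀ w ∈ Kof p i eX, ∃ n : ℕ, (Red.endHom p (sOp tX a l) ^ n) w = 0 := by
      intro l w hw
      refine ⟨E l, ?_⟩
      rw [← hall l, mem_Kof] at hw
      have hc : Commute (sOp tX a l ^ E l) eX := ((commute_sOp tX a eX h.comX l).pow_right _).symm
      have h0 : Red.endHom p (sOp tX a l ^ E l * (eX * (1 - sOp tX a l ^ E l))) = 0 := by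
        rw [← mul_assoc, hc.eq, mul_assoc, map_mul, map_mul, map_sub, map_one, mul_sub, mul_one,
          (hEX l).eq, sub_self, mul_zero]
      rw [← map_pow]
      conv_lhs => rw [← hw.2]
      rw [← Module.End.mul_apply, ← map_mul, h0, LinearMap.zero_apply]
    obtain ⟨w, hwK, hw0, hw⟩ := exists_common_ker
      (fun l => Red.endHom p (sOp tX a l)) hcomm (Kof p i eX) hbot hstab hnil
    obtain ⟨x, rfl⟩ := Red.mk_surjective p w
    rw [mem_Kof] at hwK
    apply hw0
    rw [Red.mk_eq_zero]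
    refine H.hIh x ?_ ?_
    · have := hwK.1
      rwa [Red.map_mk, Red.mk_eq_zero] at this
    · intro l
      have := hw l
      rwa [Red.endHom_mk, Red.mk_eq_zero, sOp_apply] at this
  · simp only [not_forall] at hall
    obtain ⟨l, hl⟩ := hall
    have hadm := adm_step H h l (E l) (hE0 l) (hEX l) (hEB l)
    have hle : Kof p i (eX * (1 - sOp tX a l ^ E l)) ≤ Kof p i eX := by
      intro w hw
      rw [mem_Kof] at hw ⊢
      refine ⟨hw.1, ?_⟩
      have h2 := hw.2
      rw [map_mul, Module.End.mul_apply] at h2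
      conv_lhs => rw [← h2]
      rw [← Module.End.mul_apply, h.idemX.eq, h2]
    have hlt : Kof p i (eX * (1 - sOp tX a l ^ E l)) < Kof p i eX := lt_of_le_of_ne hle hl
    exact ih _ (hn ▸ Submodule.finrank_lt_finrank_of_lt hlt) _ _ hadm rfl

theorem step2 [Fact p.Prime] [Module.Finite ℤ X] [Module.Finite ℤ B]
    (H : Hyp p tX tB i j a βX βB) {eX : Module.End ℤ X} {eB : Module.End ℤ B}
    (h : Adm p tX tB i j a βX eX eB) (hK : Kof p i eX = ⊥) (c : X) :
    ∃ (b : B) (c' : X), eX c = j b + (p : ℤ) • c' := by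
  have : NeZero p := ⟨(Fact.out : p.Prime).ne_zero⟩
  obtain ⟨u, z, huz⟩ := exists_eq_add_of_dual (Red.map p i) (Red.map p j) (Red.bil p βX)
    (Red.bil p βB)
    (by
      intro w hw
      obtain ⟨x, rfl⟩ := Red.mk_surjective p w
      rw [Red.mk_eq_zero]
      refine H.hndX x (fun y => ?_)
      have := hw (Red.mk p y)
      rwa [Red.bil_mk] at this)
    (by
      intro w hw
      obtain ⟨x, rfl⟩ := Red.mk_surjective p w
      rw [Red.mk_eq_zero]
      refine H.hndB x (fun y => ?_)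
      have := hw (Red.mk p y)
      rwa [Red.bil_mk] at this)
    (by
      intro w u
      obtain ⟨x, rfl⟩ := Red.mk_surjective p w
      obtain ⟨y, rfl⟩ := Red.mk_surjective p u
      rw [Red.map_mk, Red.map_mk, Red.bil_mk, Red.bil_mk, H.hadj])
    (Red.endHom p eX)
    (by
      intro w z
      obtain ⟨x, rfl⟩ := Red.mk_surjective p w
      obtain ⟨y, rfl⟩ := Red.mk_surjective p z
      rw [Red.endHom_mk, Red.endHom_mk, Red.bil_mk, Red.bil_mk, h.sa])
    (by
      intro w hw1 hw2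
      have : w ∈ Kof p i eX := mem_Kof.mpr ⟨hw1, hw2⟩
      rwa [hK, Submodule.mem_bot] at this)
    (Red.mk p c)
  obtain ⟨b₀, rfl⟩ := Red.mk_surjective p u
  have h1 : Red.endHom p eX (Red.mk p c) = Red.mk p (j (eB b₀)) := by
    rw [huz, map_add, map_sub, ← Module.End.mul_apply (Red.endHom p eX) (Red.endHom p eX),
      h.idemX.eq, sub_self, add_zero, Red.map_mk, Red.endHom_mk, h.int_j]
  rw [Red.endHom_mk, Red.mk_eq_mk] at h1
  obtain ⟨c', hc'⟩ := h1
  exact ⟨eB b₀, c', by rw [← hc']; abel⟩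

/-- **CORE, lattice form.** -/
theorem ribetCoreLattice [Fact p.Prime] [Module.Finite ℤ X] [Module.Finite ℤ B]
    (H : Hyp p tX tB i j a βX βB) (v : X) (hv0 : ¬ ∃ z, v = (p : ℤ) • z)
    (hveig : ∀ l, ∃ z, tX l v - a l • v = (p : ℤ) • z) (hjv : ∃ z, j (i v) = (p : ℤ) • z) :
    ∃ y : B, j y = 0 ∧ (¬ ∃ z, y = (p : ℤ) • z) ∧ ∀ l, ∃ z, tB l y - a l • y = (p : ℤ) • z := by
  obtain ⟨eX, eB, h, hK⟩ := exists_adm_bot H
  -- `y0 = i v`
  have hy0 : ¬ ∃ z, i v = (p : ℤ) • z := fun hz => hv0 (H.hIh v hz hveig)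
  have hy0eig : ∀ l, ∃ z, tB l (i v) - a l • i v = (p : ℤ) • z := by
    intro l
    obtain ⟨z, hz⟩ := hveig l
    exact ⟨i z, by rw [H.hi, ← map_zsmul, ← map_sub, hz, map_zsmul]⟩
  have hey0 : ∃ z, eB (i v) - i v = (p : ℤ) • z := by
    obtain ⟨z, hz⟩ := h.fix v hveig
    exact ⟨i z, by rw [← h.int_i, ← map_sub, hz, map_zsmul]⟩
  -- Step 4
  have hstep : ∀ k : ℕ, ∃ y : B, (∃ z, y - i v = (p : ℤ) • z) ∧
      ∃ c, j y = ((p : ℤ) ^ (k + 1)) • c := by
    intro k
    induction k with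
    | zero =>
      obtain ⟨z, hz⟩ := hjv
      exact ⟨i v, ⟨0, by simp⟩, z, by rw [hz]; simp⟩
    | succ k ih =>
      obtain ⟨y, ⟨z, hz⟩, c, hc⟩ := ih
      obtain ⟨b, c', hb⟩ := step2 H h hK c
      obtain ⟨z', hz'⟩ := hey0
      refine ⟨eB y - ((p : ℤ) ^ (k + 1)) • b, ⟨eB z + z' - ((p : ℤ) ^ k) • b, ?_⟩, c', ?_⟩
      · have hy : y = i v + (p : ℤ) • z := by rw [← hz]; abel
        have he : eB (i v) = i v + (p : ℤ) • z' := by rw [← hz']; abel
        rw [hy, map_add, map_zsmul, he, pow_succ, smul_sub, smul_add, mul_comm, mul_smul]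
        abel
      · rw [map_sub, map_zsmul, h.int_j, hc, map_zsmul, hb, smul_add, pow_succ _ (k + 1),
          mul_smul]
        abel
  -- Step 5: Artin–Rees
  obtain ⟨k, hk⟩ := Ideal.exists_pow_inf_eq_pow_smul (Ideal.span {(p : ℤ)}) (LinearMap.range j)
  obtain ⟨y, ⟨z, hz⟩, c, hc⟩ := hstep k
  have hmem : j y ∈ (Ideal.span {(p : ℤ)} : Ideal ℤ) • LinearMap.range j := by
    have h1 : j y ∈ (Ideal.span {(p : ℤ)}) ^ (k + 1) • (⊤ : Submodule ℤ X) ⊓ LinearMap.range j := by
      refine ⟨?_, ⟨y, rfl⟩⟩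
      rw [hc]
      exact Submodule.smul_mem_smul (Ideal.pow_mem_pow (Ideal.mem_span_singleton_self _) _)
        Submodule.mem_top
    rw [hk (k + 1) (Nat.le_succ k), Nat.add_sub_cancel_left, pow_one] at h1
    exact Submodule.smul_mono le_rfl inf_le_right h1
  rw [Submodule.ideal_span_singleton_smul, Submodule.mem_smul_pointwise_iff_exists] at hmem
  obtain ⟨_, ⟨b', rfl⟩, hb'⟩ := hmem
  have hκ : ∃ w, y - (p : ℤ) • b' = i v + (p : ℤ) • w := ⟨z - b', by rw [smul_sub, ← hz]; abel⟩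
  obtain ⟨w, hw⟩ := hκ
  refine ⟨y - (p : ℤ) • b', ?_, ?_, ?_⟩
  · rw [map_sub, map_zsmul, hb', sub_self]
  · rintro ⟨z', hz'⟩
    apply hy0
    refine ⟨z' - w, ?_⟩
    rw [smul_sub, ← hz', hw]
    abel
  · intro l
    obtain ⟨z', hz'⟩ := hy0eig l
    refine ⟨z' + (tB l w - a l • w), ?_⟩
    rw [hw, map_add, map_zsmul, smul_add, smul_add, ← hz', smul_sub, smul_comm (p : ℤ) (a l) w]
    abel

end Lattice


/-! ### from CoreTop -/


theorem ribetCore_unfolded (p : ℕ) [Fact p.Prime] (ι : Type) (A B : Type) [AddCommGroup A]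
    [AddCommGroup B] [Module.Finite ℤ A] [Module.Free ℤ A] [Module.Finite ℤ B] [Module.Free ℤ B]
    (tA : ι → A →ₗ[ℤ] A) (tB : ι → B →ₗ[ℤ] B) (T : A →ₗ[ℤ] A)
    (i₁ i₂ : A →ₗ[ℤ] B) (j₁ j₂ : B →ₗ[ℤ] A) (c μ : ℤ) (a : ι → ℤ)
    (βA : A → A → ZMod p) (βB : B → B → ZMod p)
    (hcA : ∀ l l' x, tA l (tA l' x) = tA l' (tA l x))
    (hcB : ∀ l l' y, tB l (tB l' y) = tB l' (tB l y))
    (hi₁ : ∀ l x, tB l (i₁ x) = i₁ (tA l x)) (hi₂ : ∀ l x, tB l (i₂ x) = i₂ (tA l x))
    (hj₁ : ∀ l y, tA l (j₁ y) = j₁ (tB l y)) (hj₂ : ∀ l y, tA l (j₂ y) = j₂ (tB l y))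
    (h11 : ∀ x, j₁ (i₁ x) = c • x) (h22 : ∀ x, j₂ (i₂ x) = c • x)
    (h12 : ∀ x, j₁ (i₂ x) = T x) (h21 : ∀ x, j₂ (i₁ x) = T x)
    (hAl : ∀ x x' y, βA (x + x') y = βA x y + βA x' y)
    (hAr : ∀ x y y', βA x (y + y') = βA x y + βA x y')
    (hBl : ∀ x x' y, βB (x + x') y = βB x y + βB x' y)
    (hBr : ∀ x y y', βB x (y + y') = βB x y + βB x y')
    (hndA : ∀ x, (∀ y, βA x y = 0) → ∃ z, x = (p : ℤ) • z)
    (hndB : ∀ x, (∀ y, βB x y = 0) → ∃ z, x = (p : ℤ) • z)
    (hsaA : ∀ l x y, βA (tA l x) y = βA x (tA l y))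
    (_hsaB : ∀ l x y, βB (tB l x) y = βB x (tB l y))
    (hadj₁ : ∀ x y, βB (i₁ x) y = βA x (j₁ y)) (hadj₂ : ∀ x y, βB (i₂ x) y = βA x (j₂ y))
    (hIh : ∀ x₁ x₂ : A, (∃ z, i₁ x₁ + i₂ x₂ = (p : ℤ) • z) →
      (∀ l, ∃ z, tA l x₁ - a l • x₁ = (p : ℤ) • z) →
      (∀ l, ∃ z, tA l x₂ - a l • x₂ = (p : ℤ) • z) →
      (∃ z, x₁ = (p : ℤ) • z) ∧ (∃ z, x₂ = (p : ℤ) • z))
    (hx : ∃ x : A, (¬ ∃ z, x = (p : ℤ) • z) ∧ (∃ z, T x - μ • x = (p : ℤ) • z) ∧
      ∀ l, ∃ z, tA l x - a l • x = (p : ℤ) • z)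
    (hμ : (p : ℤ) ∣ μ ^ 2 - c ^ 2) :
    ∃ y : B, j₁ y = 0 ∧ j₂ y = 0 ∧ (¬ ∃ z, y = (p : ℤ) • z) ∧
      ∀ l, ∃ z, tB l y - a l • y = (p : ℤ) • z := by
  -- bundled forms
  let βA' : A →+ A →+ ZMod p :=
    AddMonoidHom.mk' (fun x => AddMonoidHom.mk' (βA x) (hAr x))
      (fun x x' => AddMonoidHom.ext fun y => hAl x x' y)
  let βB' : B →+ B →+ ZMod p :=
    AddMonoidHom.mk' (fun x => AddMonoidHom.mk' (βB x) (hBr x))
      (fun x x' => AddMonoidHom.ext fun y => hBl x x' y)
  have hβA' : ∀ x y, βA' x y = βA x y := fun _ _ => rfl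
  have hβB' : ∀ x y, βB' x y = βB x y := fun _ _ => rfl
  let βX : (A × A) →+ (A × A) →+ ZMod p :=
    AddMonoidHom.mk' (fun x => (βA' x.1).comp (AddMonoidHom.fst A A) +
        (βA' x.2).comp (AddMonoidHom.snd A A))
      (fun x x' => AddMonoidHom.ext fun y => by
        simp only [Prod.fst_add, Prod.snd_add, map_add, AddMonoidHom.add_apply,
          AddMonoidHom.coe_comp, AddMonoidHom.coe_fst, AddMonoidHom.coe_snd, Function.comp_apply]
        abel)
  have hβX : ∀ x y : A × A, βX x y = βA x.1 y.1 + βA x.2 y.2 := fun _ _ => rfl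
  let tX : ι → Module.End ℤ (A × A) := fun l => LinearMap.prodMap (tA l) (tA l)
  let i : (A × A) →ₗ[ℤ] B := i₁.coprod i₂
  let j : B →ₗ[ℤ] (A × A) := j₁.prod j₂
  have htX : ∀ l (x : A × A), tX l x = (tA l x.1, tA l x.2) := fun _ _ => rfl
  have hiX : ∀ x : A × A, i x = i₁ x.1 + i₂ x.2 := fun x => LinearMap.coprod_apply i₁ i₂ x
  have hjX : ∀ y : B, j y = (j₁ y, j₂ y) := fun _ => rfl
  have hpair : ∀ (x : A × A), (∃ z, x = (p : ℤ) • z) ↔
      (∃ z, x.1 = (p : ℤ) • z) ∧ (∃ z, x.2 = (p : ℤ) • z) := by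
    intro x
    constructor
    · rintro ⟨z, rfl⟩
      exact ⟨⟨z.1, rfl⟩, ⟨z.2, rfl⟩⟩
    · rintro ⟨⟨z₁, h₁⟩, ⟨z₂, h₂⟩⟩
      exact ⟨(z₁, z₂), Prod.ext h₁ h₂⟩
  have heigX : ∀ (x : A × A) (l : ι), (∃ z, tX l x - a l • x = (p : ℤ) • z) ↔
      (∃ z, tA l x.1 - a l • x.1 = (p : ℤ) • z) ∧ (∃ z, tA l x.2 - a l • x.2 = (p : ℤ) • z) :=
    fun x l => hpair _
  have hβA0 : ∀ x, βA x 0 = 0 := fun x => map_zero (βA' x)
  have H : Hyp p tX tB i j a βX βB' := by
    refine ⟨?_, ?_, ?_, ?_, ?_, ?_, ?_, ?_, ?_⟩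
    · intro l l'
      refine LinearMap.ext fun x => ?_
      show tX l (tX l' x) = tX l' (tX l x)
      rw [htX, htX, htX, htX]
      exact Prod.ext (hcA l l' x.1) (hcA l l' x.2)
    · intro l l'
      exact LinearMap.ext fun y => hcB l l' y
    · intro l x
      rw [hiX, hiX, map_add, hi₁, hi₂, htX]
    · intro l y
      rw [hjX, hjX, htX]
      exact Prod.ext (hj₁ l y) (hj₂ l y)
    · intro l x y
      rw [hβX, hβX, htX, htX]
      show βA (tA l x.1) y.1 + βA (tA l x.2) y.2 = βA x.1 (tA l y.1) + βA x.2 (tA l y.2)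
      rw [hsaA, hsaA]
    · intro x y
      rw [hβB', hiX, hBl, hadj₁, hadj₂, hβX, hjX]
    · intro x hx
      rw [hpair]
      constructor
      · refine hndA x.1 (fun y => ?_)
        have := hx (y, 0)
        rw [hβX] at this
        simpa [hβA0] using this
      · refine hndA x.2 (fun y => ?_)
        have := hx (0, y)
        rw [hβX] at this
        simpa [hβA0] using this
    · intro x hx
      exact hndB x hx
    · intro x hix heig
      rw [hpair]
      rw [hiX] at hix
      exact hIh x.1 x.2 hix (fun l => ((heigX x l).mp (heig l)).1)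
        (fun l => ((heigX x l).mp (heig l)).2)
  -- Step 3: the starting vector
  obtain ⟨x, hx0, ⟨t, ht⟩, hxeig⟩ := hx
  have hTx : T x = μ • x + (p : ℤ) • t := by rw [← ht]; abel
  obtain ⟨d, hd⟩ := hμ
  have hmain : ∃ v : A × A, (¬ ∃ z, v = (p : ℤ) • z) ∧
      (∀ l, ∃ z, tX l v - a l • v = (p : ℤ) • z) ∧ ∃ z, j (i v) = (p : ℤ) • z := by
    by_cases hcase : (∃ z, μ • x = (p : ℤ) • z) ∧ (∃ z, c • x = (p : ℤ) • z)
    · obtain ⟨⟨zμ, hzμ⟩, ⟨zc, hzc⟩⟩ := hcase
      refine ⟨(x, 0), ?_, ?_, ?_⟩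
      · rw [hpair]
        exact fun h => hx0 h.1
      · intro l
        rw [heigX]
        exact ⟨hxeig l, ⟨0, by simp⟩⟩
      · rw [hpair, hjX, hiX]
        simp only [map_zero, add_zero]
        refine ⟨⟨zc, by rw [h11, hzc]⟩, ⟨zμ + t, ?_⟩⟩
        rw [h21, hTx, hzμ, smul_add]
    · refine ⟨(μ • x, -(c • x)), ?_, ?_, ?_⟩
      · rw [hpair]
        rintro ⟨h1, ⟨z, hz⟩⟩
        exact hcase ⟨h1, ⟨-z, by rw [smul_neg, ← hz, neg_neg]⟩⟩
      · intro l
        rw [heigX]
        obtain ⟨z, hz⟩ := hxeig l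
        constructor
        · refine ⟨μ • z, ?_⟩
          show tA l (μ • x) - a l • μ • x = (p : ℤ) • μ • z
          rw [map_zsmul, smul_comm (a l) μ x, ← smul_sub, hz, smul_comm]
        · refine ⟨-(c • z), ?_⟩
          show tA l (-(c • x)) - a l • -(c • x) = (p : ℤ) • -(c • z)
          rw [map_neg, map_zsmul, smul_neg, smul_comm (a l) c x, sub_neg_eq_add, neg_add_eq_sub,
            ← smul_sub, ← neg_sub, smul_neg, hz, smul_neg, smul_comm]
      · rw [hpair, hjX, hiX]
        show (∃ z, j₁ (i₁ (μ • x) + i₂ (-(c • x))) = (p : ℤ) • z) ∧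
          ∃ z, j₂ (i₁ (μ • x) + i₂ (-(c • x))) = (p : ℤ) • z
        constructor
        · refine ⟨-(c • t), ?_⟩
          rw [map_add, h11, h12, map_neg, map_zsmul, hTx, smul_add, smul_neg, smul_comm c μ x,
            smul_comm c (p : ℤ) t]
          abel
        · refine ⟨d • x + μ • t, ?_⟩
          have e1 : j₂ (i₁ (μ • x) + i₂ (-(c • x))) = μ • (μ • x + (p : ℤ) • t) - c • c • x := by
            rw [map_add, h21, h22, map_zsmul, hTx, smul_neg]
            abel
          have e2 : (p : ℤ) • (d • x + μ • t) = (μ ^ 2 - c ^ 2) • x + μ • (p : ℤ) • t := by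
            rw [hd, smul_add, mul_smul, smul_comm (p : ℤ) μ t]
          rw [e1, e2, sub_smul, pow_two, pow_two, mul_smul, mul_smul, smul_add]
          abel
  obtain ⟨v, hv0, hveig, hjv⟩ := hmain
  obtain ⟨y, hjy, hy0, hyeig⟩ := ribetCoreLattice H v hv0 hveig hjv
  rw [hjX] at hjy
  exact ⟨y, (Prod.ext_iff.mp hjy).1, (Prod.ext_iff.mp hjy).2, hy0, hyeig⟩


end Fermat.Agent.S41.H577
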