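import Fermat.Agent.S41.Spec.Core
import Fermat.Agent.S41.H577.CoreLattice

/-!
# S41 / block CORE — `ribetCore : Spec.RibetCoreStatement` (helper577)

Adapter: the Mathlib-only proof is `Fermat.Agent.S41.H577.ribetCore_unfolded`
(`Fermat/Agent/S41/H577/CoreLattice.lean`).
-/

set_option autoImplicit false

namespace Fermat.Agent.S41.H577

/-- **Block CORE of row S41** (Ribet's linear algebra). -/
theorem ribetCore : Fermat.Agent.S41.Spec.RibetCoreStatement := by
  intro p _ ι A B _ _ _ _ _ _ tA tB T i₁ i₂ j₁ j₂ c μ a βA βB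
  exact ribetCore_unfolded p ι A B tA tB T i₁ i₂ j₁ j₂ c μ a βA βB

end Fermat.Agent.S41.H577
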